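import Mathlib
import Fermat.Agent.LT.T7.H534.DownBasisSpec

/-!
# Row LT, tower T7, leaf T7.L2.3.5.1 `SD534.CuspFormC` (helper76)

OFF-MAIN.  `cuspFormC76 : SD534.CuspFormC K` for every number field `K`, VERBATIM against the
frozen bytes `LT/T7/H534/DownBasisSpec.lean` (helper534, sha256 `b2d5929f5cd243f8`).
Unconditional: no fact of T1 is assumed (Mathlib + the definitions of the Spec only).

* the algebra of `T5.innerD` (additive, homogeneous, hermitian, non-negative): cusp functions are
  continuous and bounded and `μ F < ∞`, so every product `f · conj f'` is integrable on `F`;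
* DEFINITE: if `∫_F |f|² = 0` then the open set `N = {f ≠ 0}` meets `F` in a null set; every `g`
  is moved into the slab by a power `rᵐ` of the ray generator (`‖det (g rᵐ)‖ = ‖det g‖ · 2ᵐ`:
  `detNorm_mul_zpow76`) and then into `F` by some `γ ∈ GL₂(K)`; `f` is invariant under both, `μ` is
  left and right invariant, `GL₂(K) × ℤ` is countable: `μ N = 0`, so `N = ∅` (Haar measures are
  positive on non-empty open sets);
* `T5.Rconv μ φ` is additive and homogeneous: `y ↦ φ y · f (x y)` is continuous with compact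
  support.
-/

set_option autoImplicit false
set_option linter.unusedSectionVars false
set_option linter.unusedVariables false

open AutomorphicForm IsDedekindDomain NumberField MeasureTheory
open scoped ComplexConjugate

noncomputable section

namespace Fermat.Agent.LT.T7.H76

open Fermat.Agent.LT.H556 Fermat.Agent.LT.H556.A0 Fermat.Agent.LT.T7 Fermat.Agent.LT

attribute [local instance] Fermat.Agent.LT.T5.instMeasurableSpaceG

variable {K : Type} [Field K] [NumberField K]

/-! ## Countability -/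

theorem countable_K76 (K : Type) [Field K] [NumberField K] : Countable K :=
  (Module.finBasis ℚ K).equivFun.injective.countable

theorem countable_GL76 (K : Type) [Field K] [NumberField K] : Countable (GL (Fin 2) K) := by
  have := countable_K76 K
  have hinj : Function.Injective (fun g : GL (Fin 2) K => fun i j : Fin 2 =>
      (g : Matrix (Fin 2) (Fin 2) K) i j) := by
    intro g h hgh
    apply Units.ext
    ext i j
    exact congrFun (congrFun hgh i) j
  exact hinj.countable

/-! ## The module of the determinant -/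

/-- The module of the determinant, as a function on `GL₂(𝔸_K)`. -/
def detNorm76 (g : G K) : ℝ :=
  T5.adNorm (Matrix.det (g : Matrix (Fin 2) (Fin 2) (Adl K)))

theorem mem_slab_iff76 (g : G K) : g ∈ T5.slab K ↔ 1 ≤ detNorm76 g ∧ detNorm76 g < 2 :=
  Iff.rfl

theorem norm_fst_eq76 (w : InfinitePlace K) (x : Adl K) : ‖x.1 w‖ = ‖T5.infHom w x‖ :=
  ((InfinitePlace.Completion.isometry_extensionEmbedding w).norm_map_of_map_zero
    (map_zero _) (x.1 w)).symm

theorem snd_eq76 (v : HeightOneSpectrum (𝓞 K)) (x : Adl K) : x.2 v = T5.finHom v x := rfl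

theorem adNorm_eq76 (x : Adl K) :
    T5.adNorm x = (∏ w : InfinitePlace K, ‖T5.infHom w x‖ ^ w.mult) *
      ∏ᶠ v : HeightOneSpectrum (𝓞 K), ‖T5.finHom v x‖ := by
  unfold T5.adNorm
  congr 1
  exact Finset.prod_congr rfl fun w _ => by rw [norm_fst_eq76]

/-- The module of a unit of the adele ring is positive. -/
theorem adNorm_pos76 (u : (Adl K)ˣ) : 0 < T5.adNorm (u : Adl K) := by
  rw [adNorm_eq76]
  apply mul_pos
  · refine Finset.prod_pos fun w _ => pow_pos ?_ _
    rw [norm_pos_iff]
    exact (u.map (T5.infHom w).toMonoidHom).ne_zero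
  · refine finprod_induction (fun x : ℝ => 0 < x) one_pos (fun x y hx hy => mul_pos hx hy) ?_
    intro v
    rw [norm_pos_iff]
    exact (u.map (T5.finHom v).toMonoidHom).ne_zero

theorem detNorm_pos76 (g : G K) : 0 < detNorm76 g := by
  unfold detNorm76
  rw [← Matrix.GeneralLinearGroup.val_det_apply]
  exact adNorm_pos76 _

/-- Multiplication by an adele which is `1` at every finite place. -/
theorem adNorm_mul_of_fin_one76 (x y : Adl K)
    (hy : ∀ v : HeightOneSpectrum (𝓞 K), T5.finHom v y = 1) :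
    T5.adNorm (x * y) = T5.adNorm x * ∏ w : InfinitePlace K, ‖T5.infHom w y‖ ^ w.mult := by
  rw [adNorm_eq76, adNorm_eq76]
  have h1 : (∏ w : InfinitePlace K, ‖T5.infHom w (x * y)‖ ^ w.mult)
      = (∏ w : InfinitePlace K, ‖T5.infHom w x‖ ^ w.mult) *
        ∏ w : InfinitePlace K, ‖T5.infHom w y‖ ^ w.mult := by
    rw [← Finset.prod_mul_distrib]
    refine Finset.prod_congr rfl fun w _ => ?_
    rw [map_mul, norm_mul, mul_pow]
  have h2 : (∏ᶠ v : HeightOneSpectrum (𝓞 K), ‖T5.finHom v (x * y)‖)
      = ∏ᶠ v : HeightOneSpectrum (𝓞 K), ‖T5.finHom v x‖ := by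
    congr 1
    funext v
    rw [map_mul, hy v, mul_one]
  rw [h1, h2]
  ring

/-- A ring homomorphism commutes with the determinant of an element of `GL₂`. -/
theorem map_det_val76 {S : Type} [CommRing S] (f : Adl K →+* S) (g : G K) :
    f (Matrix.det (g : Matrix (Fin 2) (Fin 2) (Adl K)))
      = ((Matrix.GeneralLinearGroup.det (Matrix.GeneralLinearGroup.map f g) : Sˣ) : S) := by
  rw [Matrix.GeneralLinearGroup.val_det_apply, RingHom.map_det]
  rfl

/-- The finite components of the determinant of a power of the ray generator. -/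
theorem finHom_det_zpow76 {r : G K} (hr : T5.IsRayGen r) (m : ℤ)
    (v : HeightOneSpectrum (𝓞 K)) :
    T5.finHom v (Matrix.det ((r ^ m : G K) : Matrix (Fin 2) (Fin 2) (Adl K))) = 1 := by
  rw [map_det_val76, map_zpow]
  have h1 : Matrix.GeneralLinearGroup.map (T5.finHom v) r = 1 := by
    apply Units.ext
    have := hr.1 v
    unfold TrivAtFin at this
    rw [T5.finComp_eq_map] at this
    exact this
  rw [h1, one_zpow, map_one, Units.val_one]

/-- The infinite components of the determinant of a power of the ray generator. -/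
theorem infHom_det_zpow76 {r : G K} {t : ℝ}
    (ht : ∀ w : InfinitePlace K, infComp w r = Matrix.diagonal (fun _ => (t : ℂ)))
    (m : ℤ) (w : InfinitePlace K) :
    T5.infHom w (Matrix.det ((r ^ m : G K) : Matrix (Fin 2) (Fin 2) (Adl K)))
      = ((t : ℂ) * (t : ℂ)) ^ m := by
  rw [map_det_val76, map_zpow, map_zpow, Units.val_zpow_eq_zpow_val]
  congr 1
  rw [Matrix.GeneralLinearGroup.val_det_apply]
  have h1 : ((Matrix.GeneralLinearGroup.map (T5.infHom w) r : GL (Fin 2) ℂ) :
      Matrix (Fin 2) (Fin 2) ℂ) = Matrix.diagonal (fun _ => (t : ℂ)) := by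
    rw [← ht w, T5.infComp_eq_map]
    rfl
  rw [h1, Matrix.det_diagonal, Fin.prod_univ_two]

/-- `‖det (g rᵐ)‖ = ‖det g‖ · 2ᵐ`. -/
theorem detNorm_mul_zpow76 {r : G K} (hr : T5.IsRayGen r) (g : G K) (m : ℤ) :
    detNorm76 (g * r ^ m) = detNorm76 g * (2 : ℝ) ^ m := by
  obtain ⟨hfin, t, ht0, ht2, ht⟩ := hr
  unfold detNorm76
  rw [Units.val_mul, Matrix.det_mul,
    adNorm_mul_of_fin_one76 _ _ (finHom_det_zpow76 ⟨hfin, t, ht0, ht2, ht⟩ m)]
  congr 1
  have hnorm : ∀ w : InfinitePlace K,
      ‖T5.infHom w (Matrix.det ((r ^ m : G K) : Matrix (Fin 2) (Fin 2) (Adl K)))‖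
        = (t * t) ^ m := by
    intro w
    rw [infHom_det_zpow76 ht m w, norm_zpow, norm_mul, Complex.norm_real, Real.norm_eq_abs,
      abs_of_pos ht0]
  simp only [hnorm]
  rw [Finset.prod_pow_eq_pow_sum, InfinitePlace.sum_mult_eq, ← zpow_natCast, ← zpow_mul,
    mul_comm m, zpow_mul, zpow_natCast]
  congr 1
  rw [← ht2, pow_mul, sq]

/-- Every `g` is moved into the slab by a power of the ray generator. -/
theorem exists_zpow_mem_slab76 {r : G K} (hr : T5.IsRayGen r) (g : G K) :
    ∃ m : ℤ, g * r ^ m ∈ T5.slab K := by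
  obtain ⟨n, hn1, hn2⟩ := exists_mem_Ico_zpow (detNorm_pos76 g) (one_lt_two (α := ℝ))
  refine ⟨-n, ?_⟩
  rw [mem_slab_iff76, detNorm_mul_zpow76 hr]
  have h2 : (0 : ℝ) < 2 ^ n := zpow_pos (by norm_num) n
  rw [zpow_neg]
  constructor
  · rw [le_mul_inv_iff₀ h2, one_mul]
    exact hn1
  · rw [mul_inv_lt_iff₀ h2]
    rw [zpow_add_one₀ (by norm_num : (2 : ℝ) ≠ 0), mul_comm] at hn2
    exact hn2

/-! ## Invariance under the powers of the ray generator -/

theorem ray_zpow76 {r : G K} {e : G K → ℂ} (h : ∀ g : G K, e (g * r) = e g) (m : ℤ)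
    (g : G K) : e (g * r ^ m) = e g := by
  have hnat : ∀ (n : ℕ) (g : G K), e (g * r ^ n) = e g := by
    intro n
    induction n with
    | zero => intro g; simp
    | succ n ih =>
      intro g
      rw [pow_succ, ← mul_assoc, h, ih]
  have hinv : ∀ (n : ℕ) (g : G K), e (g * (r ^ n)⁻¹) = e g := by
    intro n g
    rw [← hnat n (g * (r ^ n)⁻¹), inv_mul_cancel_right]
  cases m with
  | ofNat n => simpa using hnat n g
  | negSucc n => simpa using hinv (n + 1) g

/-! ## Integrability -/

theorem borelSpace76 : BorelSpace (G K) := ⟨rfl⟩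

theorem integrableOn_mul_conj76 {μ : Measure (G K)} {F : Set (G K)} (hF : μ F < ⊤)
    {f f' : G K → ℂ} (hfc : Continuous f) (hfb : ∃ C : ℝ, ∀ g : G K, ‖f g‖ ≤ C)
    (hfc' : Continuous f') (hfb' : ∃ C : ℝ, ∀ g : G K, ‖f' g‖ ≤ C) :
    IntegrableOn (fun x => f x * conj (f' x)) F μ := by
  have : BorelSpace (G K) := borelSpace76
  obtain ⟨C, hC⟩ := hfb
  obtain ⟨C', hC'⟩ := hfb'
  have hcont : Continuous (fun x => f x * conj (f' x)) :=
    hfc.mul (Complex.continuous_conj.comp hfc')
  refine Measure.integrableOn_of_bounded (M := C * C') hF.ne hcont.aestronglyMeasurable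
    (Filter.Eventually.of_forall fun g => ?_)
  rw [norm_mul, RCLike.norm_conj]
  exact mul_le_mul (hC g) (hC' g) (norm_nonneg _) ((norm_nonneg _).trans (hC g))

/-! ## The form -/

theorem innerD_add_left76 {μ : Measure (G K)} {F : Set (G K)} (hF : μ F < ⊤)
    {f f' f'' : G K → ℂ} (hfc : Continuous f) (hfb : ∃ C : ℝ, ∀ g : G K, ‖f g‖ ≤ C)
    (hfc' : Continuous f') (hfb' : ∃ C : ℝ, ∀ g : G K, ‖f' g‖ ≤ C)
    (hfc'' : Continuous f'') (hfb'' : ∃ C : ℝ, ∀ g : G K, ‖f'' g‖ ≤ C) :
    T5.innerD μ F (f + f') f'' = T5.innerD μ F f f'' + T5.innerD μ F f' f'' := by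
  unfold T5.innerD
  rw [← integral_add (integrableOn_mul_conj76 hF hfc hfb hfc'' hfb'')
    (integrableOn_mul_conj76 hF hfc' hfb' hfc'' hfb'')]
  congr 1
  funext x
  simp [add_mul]

theorem innerD_smul_left76 (μ : Measure (G K)) (F : Set (G K)) (a : ℂ) (f f' : G K → ℂ) :
    T5.innerD μ F (a • f) f' = a * T5.innerD μ F f f' := by
  unfold T5.innerD
  rw [← integral_const_mul]
  congr 1
  funext x
  simp [mul_assoc]

theorem innerD_conj_symm76 (μ : Measure (G K)) (F : Set (G K)) (f f' : G K → ℂ) :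
    T5.innerD μ F f' f = conj (T5.innerD μ F f f') := by
  unfold T5.innerD
  rw [← integral_conj]
  congr 1
  funext x
  simp [mul_comm]

theorem innerD_self_eq76 (μ : Measure (G K)) (F : Set (G K)) (f : G K → ℂ) :
    T5.innerD μ F f f = ((∫ x in F, Complex.normSq (f x) ∂μ : ℝ) : ℂ) := by
  unfold T5.innerD
  have h : ∀ x, f x * conj (f x) = ((Complex.normSq (f x) : ℝ) : ℂ) :=
    fun x => Complex.mul_conj (f x)
  simp only [h]
  exact integral_ofReal

theorem innerD_self_nonneg76 (μ : Measure (G K)) (F : Set (G K)) (f : G K → ℂ) :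
    0 ≤ (T5.innerD μ F f f).re := by
  rw [innerD_self_eq76, Complex.ofReal_re]
  exact integral_nonneg fun x => Complex.normSq_nonneg _

/-- **Definiteness** of the form on the cusp functions (only continuity, boundedness and the
two invariances are used). -/
theorem innerD_definite76 {μ : Measure (G K)} {F : Set (G K)} {r : G K}
    (hfr : T5.IsFrame μ F) (hr : T5.IsRayGen r) {f : G K → ℂ} (hfc : Continuous f)
    (hfb : ∃ C : ℝ, ∀ g : G K, ‖f g‖ ≤ C)
    (hleft : ∀ (γ : GL (Fin 2) K) (g : G K), f (T5.ratG γ * g) = f g)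
    (hray : ∀ g : G K, f (g * r) = f g)
    (h0 : T5.innerD μ F f f = 0) : f = 0 := by
  have : BorelSpace (G K) := borelSpace76
  have := hfr.haar
  have := countable_GL76 K
  -- the real form of the hypothesis
  have hintR : IntegrableOn (fun x => Complex.normSq (f x)) F μ := by
    have h := (integrableOn_mul_conj76 hfr.finite hfc hfb hfc hfb).re
    refine h.congr (Filter.Eventually.of_forall fun x => ?_)
    show (f x * conj (f x)).re = Complex.normSq (f x)
    rw [Complex.mul_conj, Complex.ofReal_re]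
  have h0R : ∫ x in F, Complex.normSq (f x) ∂μ = 0 := by
    rw [innerD_self_eq76] at h0
    exact_mod_cast h0
  have hae : (fun x => Complex.normSq (f x)) =ᵐ[μ.restrict F] 0 :=
    (setIntegral_eq_zero_iff_of_nonneg_ae
      (Filter.Eventually.of_forall fun x => Complex.normSq_nonneg _) hintR).1 h0R
  -- the open set where `f ≠ 0`
  set N : Set (G K) := {x | f x ≠ 0} with hN
  have hNopen : IsOpen N := isOpen_ne_fun hfc continuous_const
  have hNF : μ (N ∩ F) = 0 := by
    have h1 : μ.restrict F N = 0 := by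
      have h2 : μ.restrict F {x | ¬ ((fun x => Complex.normSq (f x)) x = (0 : G K → ℝ) x)} = 0 :=
        hae
      refine measure_mono_null (fun x hx => ?_) h2
      show ¬ (Complex.normSq (f x) = 0)
      rw [Complex.normSq_eq_zero]
      exact hx
    rwa [Measure.restrict_apply hNopen.measurableSet] at h1
  -- the translates of `N ∩ F` cover `N`
  have hcover : N ⊆ ⋃ p : GL (Fin 2) K × ℤ,
      (fun x : G K => x * r ^ p.2) ⁻¹' ((fun y : G K => T5.ratG p.1 * y) ⁻¹' (N ∩ F)) := by
    intro x hx
    obtain ⟨m, hm⟩ := exists_zpow_mem_slab76 hr x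
    obtain ⟨γ, hγ, -⟩ := hfr.strict _ hm
    refine Set.mem_iUnion.2 ⟨(γ, m), ?_⟩
    refine ⟨?_, hγ⟩
    show f (T5.ratG γ * (x * r ^ m)) ≠ 0
    rw [hleft, ray_zpow76 hray]
    exact hx
  have hnull : μ (⋃ p : GL (Fin 2) K × ℤ,
      (fun x : G K => x * r ^ p.2) ⁻¹' ((fun y : G K => T5.ratG p.1 * y) ⁻¹' (N ∩ F))) = 0 := by
    refine measure_iUnion_null fun p => ?_
    have hmeas : MeasurableSet ((fun y : G K => T5.ratG p.1 * y) ⁻¹' (N ∩ F)) :=
      (continuous_const_mul (T5.ratG p.1)).measurable (hNopen.measurableSet.inter hfr.meas)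
    rw [hfr.right_inv (r ^ p.2) _ hmeas, measure_preimage_mul]
    exact hNF
  have hN0 : μ N = 0 := measure_mono_null hcover hnull
  -- a Haar measure is positive on non-empty open sets
  funext x
  by_contra hx
  have hpos : 0 < μ N := hNopen.measure_pos μ ⟨x, hx⟩
  rw [hN0] at hpos
  exact lt_irrefl _ hpos

/-! ## The convolutions -/

theorem integrable_conv76 {μ : Measure (G K)} (hμ : μ.IsHaarMeasure) {φ f : G K → ℂ}
    (hφc : Continuous φ) (hφs : HasCompactSupport φ) (hfc : Continuous f) (x : G K) :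
    Integrable (fun y => φ y * f (x * y)) μ := by
  have : BorelSpace (G K) := borelSpace76
  have := hμ
  refine Continuous.integrable_of_hasCompactSupport
    (hφc.mul (hfc.comp (continuous_const_mul x))) ?_
  exact hφs.mul_right

theorem rconv_add76 {μ : Measure (G K)} (hμ : μ.IsHaarMeasure) {φ f f' : G K → ℂ}
    (hφc : Continuous φ) (hφs : HasCompactSupport φ) (hfc : Continuous f)
    (hfc' : Continuous f') :
    T5.Rconv μ φ (f + f') = T5.Rconv μ φ f + T5.Rconv μ φ f' := by
  funext x
  show ∫ y, φ y * (f + f') (x * y) ∂μ = (∫ y, φ y * f (x * y) ∂μ) + ∫ y, φ y * f' (x * y) ∂μ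
  rw [← integral_add (integrable_conv76 hμ hφc hφs hfc x) (integrable_conv76 hμ hφc hφs hfc' x)]
  congr 1
  funext y
  simp [mul_add]

theorem rconv_smul76 (μ : Measure (G K)) (φ : G K → ℂ) (a : ℂ) (f : G K → ℂ) :
    T5.Rconv μ φ (a • f) = a • T5.Rconv μ φ f := by
  funext x
  show ∫ y, φ y * (a • f) (x * y) ∂μ = a • ∫ y, φ y * f (x * y) ∂μ
  rw [smul_eq_mul, ← integral_const_mul]
  congr 1
  funext y
  simp [mul_left_comm]

/-! ## The leaf -/

/-- **T7.L2.3.5.1** `SD534.CuspFormC`, unconditionally, for every number field. -/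
theorem cuspFormC76 (K : Type) [Field K] [NumberField K] : SD534.CuspFormC K := by
  intro μ F r 𝔫 _ hfr hr
  refine
    { add_left := fun f f' f'' hf hf' hf'' =>
        innerD_add_left76 hfr.finite hf.cont hf.bdd hf'.cont hf'.bdd hf''.cont hf''.bdd
      smul_left := fun a f f' _ _ => innerD_smul_left76 μ F a f f'
      conj_symm := fun f f' _ _ => innerD_conj_symm76 μ F f f'
      nonneg := fun f _ => innerD_self_nonneg76 μ F f
      definite := fun f hf h0 =>
        innerD_definite76 hfr hr hf.cont hf.bdd hf.aut.left_inv hf.aut.ray h0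
      conv_add := fun φ f f' hφ hf hf' =>
        rconv_add76 hfr.haar hφ.cont hφ.supp hf.cont hf'.cont
      conv_smul := fun φ a f _ _ => rconv_smul76 μ φ a f }

end Fermat.Agent.LT.T7.H76

end
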